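import Fermat.Agent.S55.G.Rec.H742.WAUnif

/-!
# S55 / G / REC2-G3 (helper742): `WeakApproxSpec`

`weakApprox : WeakApproxSpec` (exact Spec2 statement): weak approximation in `K = ℚ̄^U` with
prescribed valuations at the places above `p` and closeness to `1` at the places above `r`.

Proof: Mathlib's abstract weak approximation theorem `AbsoluteValue.denseRange_algebraMap_pi`
applied to the absolute values `x ↦ ‖ι_p (g⁻¹ x)‖` (`g ∈ Rp`) and `x ↦ ‖ι_r (φ x)‖`
(`φ : K → ℚ̄` an embedding); distinct `g ∈ Rp` give distinct places (`exists_doubleCoset_of_inter_eq`),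
uniformizers exist (`exists_isUniformizer`) and their norms are attained on `K`
(`exists_global_norm_eq`).
-/

set_option autoImplicit false
set_option linter.style.haveILetI false

noncomputable section

namespace Fermat.Agent.S55.G.Rec.H742

open scoped Pointwise

local notation "Qb" => AlgebraicClosure ℚ
local notation "GQ" => (AlgebraicClosure ℚ ≃ₐ[ℚ] AlgebraicClosure ℚ)

section Abs

variable (p : ℕ) [Fact p.Prime] (K : IntermediateField ℚ Qb)

/-- The absolute value `x ↦ ‖ι_p (φ x)‖` on `K`, for an embedding `φ : K → ℚ̄`. -/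
def embAbs (φ : K →ₐ[ℚ] Qb) : AbsoluteValue K ℝ where
  toFun x := ‖padicEmbedding p (φ x)‖
  map_mul' x y := by simp [map_mul]
  nonneg' x := norm_nonneg _
  eq_zero' x := by simp
  add_le' x y := by
    simp only [map_add]
    exact norm_add_le _ _

theorem embAbs_apply (φ : K →ₐ[ℚ] Qb) (x : K) : embAbs p K φ x = ‖padicEmbedding p (φ x)‖ := rfl

/-- The embedding `x ↦ g⁻¹ x` of `K`. -/
def gEmb (g : GQ) : K →ₐ[ℚ] Qb := ((g⁻¹ : GQ) : Qb ≃ₐ[ℚ] Qb).toAlgHom.comp K.val

theorem gEmb_apply (g : GQ) (x : K) : gEmb K g x = g⁻¹ (x : Qb) := rfl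

theorem embAbs_natCast_self (φ : K →ₐ[ℚ] Qb) : embAbs p K φ ((p : ℕ) : K) = (p : ℝ)⁻¹ := by
  rw [embAbs_apply, map_natCast, map_natCast]
  exact norm_natCast_self_padicAlgCl p

theorem embAbs_natCast_of_ne (φ : K →ₐ[ℚ] Qb) {r : ℕ} (hr : r.Prime) (hrp : r ≠ p) :
    embAbs p K φ ((r : ℕ) : K) = 1 := by
  rw [embAbs_apply, map_natCast, map_natCast]
  exact norm_natCast_padicAlgCl_of_ne p hr hrp

theorem natCast_ne_zero_K : ((p : ℕ) : K) ≠ 0 := by
  have hp : (p : ℕ).Prime := Fact.out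
  exact_mod_cast hp.ne_zero

theorem inv_natCast_ne_one : ((p : ℕ) : ℝ)⁻¹ ≠ 1 := by
  have hp : (p : ℕ).Prime := Fact.out
  rw [ne_eq, inv_eq_one]
  exact_mod_cast hp.one_lt.ne'

theorem embAbs_isNontrivial (φ : K →ₐ[ℚ] Qb) : (embAbs p K φ).IsNontrivial :=
  ⟨((p : ℕ) : K), natCast_ne_zero_K p K, by
    rw [embAbs_natCast_self]
    exact inv_natCast_ne_one p⟩

theorem embAbs_eq_of_isEquiv (φ ψ : K →ₐ[ℚ] Qb)
    (h : (embAbs p K φ).IsEquiv (embAbs p K ψ)) : embAbs p K φ = embAbs p K ψ := by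
  refine eq_of_isEquiv_of_apply_eq h (natCast_ne_zero_K p K) ?_ ?_
  · rw [embAbs_natCast_self]
    exact inv_natCast_ne_one p
  · rw [embAbs_natCast_self, embAbs_natCast_self]

theorem embAbs_not_isEquiv (r : ℕ) [Fact r.Prime] (hpr : p ≠ r) (φ ψ : K →ₐ[ℚ] Qb) :
    ¬ (embAbs p K φ).IsEquiv (embAbs r K ψ) := by
  intro h
  have hp : (p : ℕ).Prime := Fact.out
  have h1 : embAbs p K φ ((p : ℕ) : K) < 1 := by
    rw [embAbs_natCast_self]
    exact inv_lt_one_of_one_lt₀ (by exact_mod_cast hp.one_lt)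
  have h2 := h.lt_one_iff.1 h1
  rw [embAbs_natCast_of_ne r K ψ hp hpr] at h2
  exact lt_irrefl _ h2

end Abs

/-- `locSub p g U` has finite index for open `U`. -/
theorem index_locSub_ne_zero (p : ℕ) [Fact p.Prime] {U : Subgroup GQ} (hU : IsOpenQ U) (g : GQ) :
    (locSub p g U).index ≠ 0 := by
  haveI : Finite (GQ ⧸ U) := Subgroup.quotient_finite_of_isOpen U (isOpen_of_isOpenQ hU)
  haveI : U.FiniteIndex := Subgroup.finiteIndex_of_finite_quotient
  haveI h1 : (U.comap (MulAut.conj g).toMonoidHom).FiniteIndex := by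
    refine ⟨?_⟩
    rw [Subgroup.index_comap]
    exact Subgroup.FiniteIndex.index_ne_zero (H := U.subgroupOf _)
  unfold locSub
  rw [Subgroup.index_comap]
  exact Subgroup.FiniteIndex.index_ne_zero
    (H := (U.comap (MulAut.conj g).toMonoidHom).subgroupOf _)

/-- distinct representatives give distinct places of `K` -/
theorem eq_of_embAbs_eq (p : ℕ) [Fact p.Prime] {U : Subgroup GQ} (hU : IsOpenQ U)
    {R : Finset GQ} (hR : IsDoubleCosetReps U (localGaloisToGlobal p).range R) {g g' : GQ}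
    (hg : g ∈ R) (hg' : g' ∈ R)
    (h : embAbs p (fixK U) (gEmb (fixK U) g') = embAbs p (fixK U) (gEmb (fixK U) g)) :
    g' = g := by
  obtain ⟨u, hu, d, hd, hgg⟩ := exists_doubleCoset_of_inter_eq p hU g g' (fun x hx => by
    have := congrArg (fun v : AbsoluteValue (fixK U) ℝ => v ⟨x, hx⟩) h
    simp only [embAbs_apply, gEmb_apply] at this
    rw [this])
  obtain ⟨r, -, hr⟩ := hR g'
  have h1 : g' = r := hr g' ⟨hg', 1, U.one_mem, 1, Subgroup.one_mem _, by simp⟩
  have h2 : g = r := hr g ⟨hg, u, hu, d, hd, hgg⟩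
  rw [h1, h2]

/-- **Leaf (G3)**: weak approximation. -/
theorem weakApprox : WeakApproxSpec := by
  classical
  intro U hU p r _ _ hpr Rp hRp j
  have hpP : (p : ℕ).Prime := Fact.out
  have hrP : (r : ℕ).Prime := Fact.out
  set K := fixK U with hK
  haveI : FiniteDimensional ℚ K := finiteDimensional_fixK hU
  -- uniformizers and global elements with the same norm
  have hπex : ∀ g : GQ, ∃ π : (PadicAlgCl p)ˣ,
      IsUniformizer p (locSub p g U) (π : PadicAlgCl p) :=
    fun g => exists_isUniformizer p (locSub p g U) (index_locSub_ne_zero p hU g)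
  choose π hπ using hπex
  have hxex : ∀ g : GQ, ∃ x : K, x ≠ 0 ∧
      embAbs p K (gEmb K g) x = ‖((π g : (PadicAlgCl p)ˣ) : PadicAlgCl p)‖ := by
    intro g
    obtain ⟨x, hx, hx0, hxn⟩ := exists_global_norm_eq p hU g (π g) (π g).ne_zero (hπ g).1
    exact ⟨⟨x, hx⟩, fun h => hx0 (congrArg Subtype.val h), hxn⟩
  choose x hx0 hxn using hxex
  -- the finite set of absolute values
  let Sp : Set (AbsoluteValue K ℝ) := (fun g => embAbs p K (gEmb K g)) '' (Rp : Set GQ)
  let Sr : Set (AbsoluteValue K ℝ) := Set.range (fun φ : K →ₐ[ℚ] Qb => embAbs r K φ)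
  have hfin : (Sp ∪ Sr).Finite :=
    (Rp.finite_toSet.image _).union (Set.finite_range _)
  haveI : Finite ↥(Sp ∪ Sr) := hfin.to_subtype
  let v : ↥(Sp ∪ Sr) → AbsoluteValue K ℝ := Subtype.val
  have hnontriv : ∀ i, (v i).IsNontrivial := by
    rintro ⟨w, hw | hw⟩
    · obtain ⟨g, -, rfl⟩ := hw
      exact embAbs_isNontrivial p K _
    · obtain ⟨φ, rfl⟩ := hw
      exact embAbs_isNontrivial r K _
  have hpair : Pairwise fun i j ↦ ¬ (v i).IsEquiv (v j) := by
    rintro ⟨w, hw⟩ ⟨w', hw'⟩ hne heq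
    apply hne
    apply Subtype.ext
    show w = w'
    change w.IsEquiv w' at heq
    rcases hw with hw | hw <;> rcases hw' with hw' | hw'
    · obtain ⟨g, -, rfl⟩ := hw
      obtain ⟨g', -, rfl⟩ := hw'
      exact embAbs_eq_of_isEquiv p K _ _ heq
    · obtain ⟨g, -, rfl⟩ := hw
      obtain ⟨φ, rfl⟩ := hw'
      exact absurd heq (embAbs_not_isEquiv p K r hpr _ _)
    · obtain ⟨φ, rfl⟩ := hw
      obtain ⟨g', -, rfl⟩ := hw'
      exact absurd heq.symm (embAbs_not_isEquiv p K r hpr _ _)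
    · obtain ⟨φ, rfl⟩ := hw
      obtain ⟨φ', rfl⟩ := hw'
      exact embAbs_eq_of_isEquiv r K _ _ heq
  -- targets
  let t : ↥(Sp ∪ Sr) → K := fun i =>
    if h : ∃ g, g ∈ Rp ∧ embAbs p K (gEmb K g) = i.1 then x h.choose ^ j h.choose else 1
  have ht0 : ∀ i, t i ≠ 0 := by
    intro i
    simp only [t]
    split_ifs with h
    · exact zpow_ne_zero _ (hx0 _)
    · exact one_ne_zero
  let ε : ↥(Sp ∪ Sr) → ℝ := fun i => min (v i (t i)) 1
  have hε : ∀ i, 0 < ε i := fun i => lt_min ((v i).pos (ht0 i)) one_pos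
  obtain ⟨a, ha⟩ := exists_approx' v hnontriv hpair t ε hε
  -- the `p`-adic places
  have hP : ∀ g ∈ Rp, embAbs p K (gEmb K g) a =
      ‖((π g : (PadicAlgCl p)ˣ) : PadicAlgCl p)‖ ^ j g := by
    intro g hg
    have hmem : embAbs p K (gEmb K g) ∈ Sp ∪ Sr := Or.inl ⟨g, hg, rfl⟩
    have hex : ∃ g', g' ∈ Rp ∧ embAbs p K (gEmb K g') = embAbs p K (gEmb K g) := ⟨g, hg, rfl⟩
    have hch : hex.choose = g :=
      eq_of_embAbs_eq p hU hRp hg hex.choose_spec.1 hex.choose_spec.2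
    have hti : t ⟨_, hmem⟩ = x g ^ j g := by
      simp only [t]
      rw [dif_pos hex, hch]
    have h1 := ha ⟨_, hmem⟩
    have h2 : embAbs p K (gEmb K g) (a - x g ^ j g) < embAbs p K (gEmb K g) (x g ^ j g) := by
      have : ε ⟨_, hmem⟩ ≤ embAbs p K (gEmb K g) (x g ^ j g) := by
        simp only [ε, v]
        rw [hti]
        exact min_le_left _ _
      have h3 : embAbs p K (gEmb K g) (a - t ⟨_, hmem⟩) < ε ⟨_, hmem⟩ := h1
      rw [hti] at h3
      exact lt_of_lt_of_le h3 this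
    have h4 : embAbs p K (gEmb K g) a = embAbs p K (gEmb K g) (x g ^ j g) := by
      simp only [embAbs_apply] at h2 ⊢
      rw [map_sub, map_sub] at h2
      exact norm_eq_of_norm_sub_lt p h2
    rw [h4, map_zpow₀, hxn]
  -- the `r`-adic places
  have hR : ∀ φ : K →ₐ[ℚ] Qb, embAbs r K φ (a - 1) < 1 := by
    intro φ
    have hmem : embAbs r K φ ∈ Sp ∪ Sr := Or.inr ⟨φ, rfl⟩
    have hnex : ¬ ∃ g, g ∈ Rp ∧ embAbs p K (gEmb K g) = embAbs r K φ := by
      rintro ⟨g, -, hg⟩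
      refine embAbs_not_isEquiv p K r hpr (gEmb K g) φ ?_
      rw [hg]
      exact AbsoluteValue.IsEquiv.refl _
    have hti : t ⟨_, hmem⟩ = 1 := by
      simp only [t]
      rw [dif_neg hnex]
    have h1 : embAbs r K φ (a - t ⟨_, hmem⟩) < ε ⟨_, hmem⟩ := ha ⟨_, hmem⟩
    rw [hti] at h1
    exact lt_of_lt_of_le h1 (min_le_right _ _)
  have ha0 : (a : Qb) ≠ 0 := by
    intro h0
    have h1 := hR (gEmb K 1)
    have ha' : a = 0 := Subtype.ext h0
    rw [ha', zero_sub, map_neg_eq_map, map_one] at h1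
    exact lt_irrefl _ h1
  refine ⟨Units.mk0 (a : Qb) ha0, gFixed_of_mem_fixK _ a.2, ?_, ?_⟩
  · intro g hg
    have hnorm : ‖padicEmbedding p (g⁻¹ (a : Qb))‖ =
        ‖((π g : (PadicAlgCl p)ˣ) : PadicAlgCl p)‖ ^ j g := hP g hg
    refine ⟨π g, (π g ^ j g)⁻¹ * locPushMul p g (Units.mk0 (a : Qb) ha0), hπ g, ?_, ?_⟩
    · rw [Units.val_mul, norm_mul, Units.val_inv_eq_inv_val, norm_inv,
        Units.val_zpow_eq_zpow_val, norm_zpow, locPushMul_coe, Units.val_mk0, hnorm]
      have hne : ‖((π g : (PadicAlgCl p)ˣ) : PadicAlgCl p)‖ ^ j g ≠ 0 :=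
        zpow_ne_zero _ (norm_ne_zero_iff.2 (π g).ne_zero)
      exact inv_mul_cancel₀ hne
    · rw [mul_inv_cancel_left]
  · intro g
    have h1 := hR (gEmb K g)
    rw [embAbs_apply] at h1
    have h2 : padicEmbedding r (gEmb K g (a - 1)) =
        padicEmbedding r (g⁻¹ (a : Qb)) - 1 := by
      rw [gEmb_apply]
      push_cast
      rw [map_sub, map_sub, map_one, map_one]
    rw [h2] at h1
    rw [locPushMul_coe, Units.val_mk0]
    exact h1

end Fermat.Agent.S55.G.Rec.H742
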