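import Mathlib

/-!
# S55 / G / REC2-G3 (helper742): weak approximation, elementwise form (Mathlib only)
-/

set_option autoImplicit false
set_option linter.style.haveILetI false

namespace Fermat.Agent.S55.G.Rec.H742

/-- Weak approximation in elementwise form: finitely many nontrivial pairwise inequivalent
absolute values, arbitrary targets. -/
theorem exists_approx {F : Type*} [Field F] {ι : Type*} [Finite ι] (v : ι → AbsoluteValue F ℝ)
    (h : ∀ i, (v i).IsNontrivial) (hv : Pairwise fun i j ↦ ¬(v i).IsEquiv (v j))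
    (t : ι → F) (ε : ℝ) (hε : 0 < ε) : ∃ a : F, ∀ i, v i (a - t i) < ε := by
  classical
  letI := Fintype.ofFinite ι
  have hd := AbsoluteValue.denseRange_algebraMap_pi h hv
  rw [Metric.denseRange_iff] at hd
  obtain ⟨a, ha⟩ := hd (fun i => WithAbs.toAbs (v i) (t i)) ε hε
  refine ⟨a, fun i => ?_⟩
  have h1 := (dist_pi_lt_iff hε).1 ha i
  rw [dist_comm, dist_eq_norm] at h1
  have h2 : (algebraMap F ((i : ι) → WithAbs (v i)) a i - WithAbs.toAbs (v i) (t i))
      = WithAbs.toAbs (v i) (a - t i) := rfl
  rw [h2, WithAbs.norm_toAbs_eq] at h1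
  exact h1

/-- Weak approximation with individual tolerances. -/
theorem exists_approx' {F : Type*} [Field F] {ι : Type*} [Finite ι] (v : ι → AbsoluteValue F ℝ)
    (h : ∀ i, (v i).IsNontrivial) (hv : Pairwise fun i j ↦ ¬(v i).IsEquiv (v j))
    (t : ι → F) (ε : ι → ℝ) (hε : ∀ i, 0 < ε i) : ∃ a : F, ∀ i, v i (a - t i) < ε i := by
  classical
  letI := Fintype.ofFinite ι
  rcases isEmpty_or_nonempty ι with hι | hι
  · exact ⟨0, fun i => (hι.false i).elim⟩
  · obtain ⟨i₀, -, hi₀⟩ := Finset.exists_min_image (Finset.univ : Finset ι) ε Finset.univ_nonempty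
    obtain ⟨a, ha⟩ := exists_approx v h hv t (ε i₀) (hε i₀)
    exact ⟨a, fun i => lt_of_lt_of_le (ha i) (hi₀ i (Finset.mem_univ i))⟩

/-- Two equivalent absolute values which agree at one element of value `≠ 1` coincide. -/
theorem eq_of_isEquiv_of_apply_eq {F : Type*} [Field F] {v w : AbsoluteValue F ℝ}
    (h : v.IsEquiv w) {c : F} (hc0 : c ≠ 0) (hc1 : v c ≠ 1) (hc : v c = w c) : v = w := by
  obtain ⟨e, he0, he⟩ := AbsoluteValue.isEquiv_iff_exists_rpow_eq.1 h
  have hvc : 0 < v c := v.pos hc0
  have h1 : (v c) ^ e = v c := by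
    have := congrFun he c
    rw [this, ← hc]
  have he1 : e = 1 := by
    by_contra hne
    have hlog : Real.log (v c) ≠ 0 := by
      intro h0
      rcases Real.log_eq_zero.1 h0 with h | h | h
      · exact hvc.ne' h
      · exact hc1 h
      · linarith
    have := congrArg Real.log h1
    rw [Real.log_rpow hvc] at this
    have h3 : (e - 1) * Real.log (v c) = 0 := by linarith
    rcases mul_eq_zero.1 h3 with h | h
    · exact hne (by linarith)
    · exact hlog h
  ext x
  have := congrFun he x
  rw [he1, Real.rpow_one] at this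
  exact this

end Fermat.Agent.S55.G.Rec.H742
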