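import Fermat.Agent.S55.G.Rec.Spec2
import Fermat.Agent.S55.Bridge.DecompLift
import Fermat.Agent.S14.H714.Trans
import Fermat.Agent.S55.G.Rec.H742.WAAbs

/-!
# S55 / G / REC2-G3 (helper742): places of `K = ℚ̄^U` and double cosets

* `fixK U` : the fixed field of `U`; for open `U` it is a number field with group `U`.
* `exists_doubleCoset_of_inter_eq` : if the places `g • 𝔭`, `g' • 𝔭` of `ℚ̄` (`𝔭 = padicPlace p`)
  have the same trace on `K`, then `g' ∈ U g D_p`.
-/

set_option autoImplicit false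
set_option linter.style.haveILetI false

noncomputable section

namespace Fermat.Agent.S55.G.Rec.H742

open scoped Pointwise

local notation "Qb" => AlgebraicClosure ℚ
local notation "GQ" => (AlgebraicClosure ℚ ≃ₐ[ℚ] AlgebraicClosure ℚ)

/-- The fixed field of `U`. -/
def fixK (U : Subgroup GQ) : IntermediateField ℚ Qb := IntermediateField.fixedField U

theorem mem_fixK_iff {U : Subgroup GQ} {x : Qb} : x ∈ fixK U ↔ ∀ u ∈ U, u x = x := by
  unfold fixK
  rw [IntermediateField.mem_fixedField_iff]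

theorem isOpen_of_isOpenQ {U : Subgroup GQ} (hU : IsOpenQ U) : IsOpen (U : Set GQ) := by
  obtain ⟨F, hF, hFU⟩ := hU
  exact Subgroup.isOpen_mono hFU (IntermediateField.fixingSubgroup_isOpen F)

theorem fixingSubgroup_fixK {U : Subgroup GQ} (hU : IsOpenQ U) : (fixK U).fixingSubgroup = U := by
  have hcl : IsClosed (U : Set GQ) := Subgroup.isClosed_of_isOpen U (isOpen_of_isOpenQ hU)
  exact InfiniteGalois.fixingSubgroup_fixedField (⟨U, hcl⟩ : ClosedSubgroup GQ)

theorem fixK_le {U : Subgroup GQ} {F : IntermediateField ℚ Qb} (hFU : F.fixingSubgroup ≤ U) :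
    fixK U ≤ F := by
  intro x hx
  rw [← InfiniteGalois.fixedField_fixingSubgroup F, IntermediateField.mem_fixedField_iff]
  intro σ hσ
  exact mem_fixK_iff.1 hx σ (hFU hσ)

theorem finiteDimensional_fixK {U : Subgroup GQ} (hU : IsOpenQ U) :
    FiniteDimensional ℚ (fixK U) := by
  obtain ⟨F, hF, hFU⟩ := hU
  exact Module.Finite.of_injective (IntermediateField.inclusion (fixK_le hFU)).toLinearMap
    (IntermediateField.inclusion (fixK_le hFU)).injective

theorem gFixed_of_mem_fixK {U : Subgroup GQ} (a : Qbˣ) (ha : (a : Qb) ∈ fixK U) : GFixed U a := by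
  intro u hu
  apply Units.ext
  exact mem_fixK_iff.1 ha u hu

variable (p : ℕ) [Fact p.Prime]

theorem mem_smul_padicPlace_iff (g : GQ) (x : Qb) :
    x ∈ g • padicPlace p ↔ ‖padicEmbedding p (g⁻¹ x)‖ ≤ 1 := by
  rw [ValuationSubring.mem_pointwise_smul_iff_inv_smul_mem]
  exact Bridge.mem_padicPlace_iff_norm p

theorem natCast_mem_nonunits_smul (g : GQ) : ((p : ℕ) : Qb) ∈ (g • padicPlace p).nonunits := by
  have hp : (p : ℕ).Prime := Fact.out
  rw [ValuationSubring.mem_nonunits_iff_or]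
  right
  rw [mem_smul_padicPlace_iff, map_inv₀, map_natCast, map_inv₀, norm_inv, not_le]
  have h := Bridge.norm_padicEmbedding_natCast_self p
  rw [h, inv_inv]
  exact_mod_cast hp.one_lt

/-- If the places `g • 𝔭` and `g' • 𝔭` have the same trace on `K = ℚ̄^U` then `g' ∈ U g D_p`. -/
theorem exists_doubleCoset_of_inter_eq {U : Subgroup GQ} (hU : IsOpenQ U) (g g' : GQ)
    (h : ∀ x ∈ fixK U, ‖padicEmbedding p (g⁻¹ x)‖ ≤ 1 ↔ ‖padicEmbedding p (g'⁻¹ x)‖ ≤ 1) :
    ∃ u ∈ U, ∃ d ∈ (localGaloisToGlobal p).range, g' = u * g * d := by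
  have hp : (p : ℕ).Prime := Fact.out
  obtain ⟨ρ, hρ, hρA⟩ := Fermat.Agent.S14.H714.exists_smul_eq_of_inter_eq (F := fixK U)
    (A := g • padicPlace p) (A' := g' • padicPlace p) hp (natCast_mem_nonunits_smul p g)
    (natCast_mem_nonunits_smul p g') (fun x hx => by
      rw [mem_smul_padicPlace_iff, mem_smul_padicPlace_iff]
      exact h x hx)
  rw [fixingSubgroup_fixK hU] at hρ
  have hd : g⁻¹ * ρ * g' ∈ (padicPlace p).decompositionSubgroup ℚ := by
    rw [MulAction.mem_stabilizer_iff, mul_smul, mul_smul, hρA, inv_smul_smul]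
  rw [← Bridge.range_localGaloisToGlobal] at hd
  refine ⟨ρ⁻¹, U.inv_mem hρ, g⁻¹ * ρ * g', hd, ?_⟩
  group

end Fermat.Agent.S55.G.Rec.H742
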