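import Fermat.Agent.S55.G.Rec.H742.WAPlaces
import Fermat.Agent.S55.G.Rec.VdegH707
import Fermat.Agent.S55.BLocal.Range

/-!
# S55 / G / REC2-G3 (helper742): uniformizers and density of `K` in `K_v`

* `exists_isUniformizer` : the fixed field of a subgroup of finite index of `G_{ℚ_p}` has a
  uniformizer.
* `exists_global_norm_eq` : every nonzero element of the fixed field of `locSub p g U` has the
  same norm as (the image of) some element of `K = ℚ̄^U`  (density of `K` in `K_v`).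
-/

set_option autoImplicit false
set_option linter.style.haveILetI false

noncomputable section

namespace Fermat.Agent.S55.G.Rec.H742

open scoped Pointwise

local notation "Qb" => AlgebraicClosure ℚ
local notation "GQ" => (AlgebraicClosure ℚ ≃ₐ[ℚ] AlgebraicClosure ℚ)

variable (p : ℕ) [Fact p.Prime]

local notation "Gp" => (PadicAlgCl p ≃ₐ[ℚ_[p]] PadicAlgCl p)

theorem norm_natCast_self_padicAlgCl : ‖((p : ℕ) : PadicAlgCl p)‖ = (p : ℝ)⁻¹ := by
  have h : ((p : ℕ) : PadicAlgCl p) = algebraMap ℚ_[p] (PadicAlgCl p) (p : ℚ_[p]) := by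
    rw [map_natCast]
  rw [h, PadicAlgCl.norm_extends, Padic.norm_p]

theorem norm_natCast_padicAlgCl_of_ne {r : ℕ} (hr : r.Prime) (hpr : r ≠ p) :
    ‖((r : ℕ) : PadicAlgCl p)‖ = 1 := by
  have hp : (p : ℕ).Prime := Fact.out
  have h : ((r : ℕ) : PadicAlgCl p) = algebraMap ℚ_[p] (PadicAlgCl p) (r : ℚ_[p]) := by
    rw [map_natCast]
  rw [h, PadicAlgCl.norm_extends, Padic.norm_natCast_eq_one_iff]
  exact ((Nat.coprime_primes hr hp).2 hpr).symm

/-- ultrametric: `‖a - b‖ < ‖b‖` implies `‖a‖ = ‖b‖` -/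
theorem norm_eq_of_norm_sub_lt {a b : PadicAlgCl p} (h : ‖a - b‖ < ‖b‖) : ‖a‖ = ‖b‖ := by
  have h1 : ‖(a - b) + b‖ = max ‖a - b‖ ‖b‖ :=
    IsUltrametricDist.norm_add_eq_max_of_norm_ne_norm h.ne
  rw [sub_add_cancel] at h1
  rw [h1, max_eq_right h.le]

/-- the fixed field of a subgroup of finite index has a uniformizer -/
theorem exists_isUniformizer (V : Subgroup Gp) (hV : V.index ≠ 0) :
    ∃ π : (PadicAlgCl p)ˣ, IsUniformizer p V (π : PadicAlgCl p) := by
  have hp : (p : ℕ).Prime := Fact.out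
  have hp1 : (1 : ℝ) < p := by exact_mod_cast hp.one_lt
  have hp0 : (0 : ℝ) < p := by exact_mod_cast hp.pos
  set n := V.index with hn
  let P : ℤ → Prop := fun k => ∃ x : (PadicAlgCl p)ˣ, LFixed p V x ∧ ‖(x : PadicAlgCl p)‖ < 1 ∧
    ‖(x : PadicAlgCl p)‖ ^ n = (p : ℝ) ^ k
  have hbdd : ∀ k, P k → k ≤ -1 := by
    rintro k ⟨x, -, hx1, hxk⟩
    have h1 : ‖(x : PadicAlgCl p)‖ ^ n < 1 := pow_lt_one₀ (norm_nonneg _) hx1 hV
    rw [hxk] at h1
    by_contra hk
    push Not at hk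
    have hk0 : 0 ≤ k := by omega
    have : (1 : ℝ) ≤ (p : ℝ) ^ k := one_le_zpow₀ hp1.le hk0
    linarith
  have hne : ∃ k, P k := by
    have hpu : IsUnit ((p : ℕ) : PadicAlgCl p) := by
      rw [isUnit_iff_ne_zero]
      exact_mod_cast hp.ne_zero
    obtain ⟨u, hu⟩ := hpu
    have hfix : LFixed p V u := by
      intro τ _
      apply Units.ext
      show τ (u : PadicAlgCl p) = u
      rw [hu, map_natCast]
    obtain ⟨k, hk⟩ := VdegH707.exists_zpow p V u hfix
    refine ⟨k, u, hfix, ?_, hk⟩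
    rw [hu, norm_natCast_self_padicAlgCl]
    exact inv_lt_one_of_one_lt₀ hp1
  obtain ⟨k₀, ⟨π, hπfix, hπ1, hπk⟩, hmax⟩ := Int.exists_greatest_of_bdd ⟨-1, hbdd⟩ hne
  refine ⟨π, ?_, π.ne_zero, hπ1, ?_⟩
  · intro τ hτ
    exact congrArg (fun u : (PadicAlgCl p)ˣ => (u : PadicAlgCl p)) (hπfix τ hτ)
  · intro x hxfix hx1
    rcases eq_or_ne x 0 with rfl | hx0
    · rw [norm_zero]
      exact norm_nonneg _
    · obtain ⟨u, hu⟩ := isUnit_iff_ne_zero.2 hx0
      have hfix : LFixed p V u := by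
        intro τ hτ
        apply Units.ext
        show τ (u : PadicAlgCl p) = u
        rw [hu]
        exact hxfix τ hτ
      obtain ⟨k, hk⟩ := VdegH707.exists_zpow p V u hfix
      rw [hu] at hk
      have hPk : P k := ⟨u, hfix, by rw [hu]; exact hx1, by rw [hu]; exact hk⟩
      have hkk : k ≤ k₀ := hmax k hPk
      have h2 : ‖x‖ ^ n ≤ ‖(π : PadicAlgCl p)‖ ^ n := by
        rw [hk, hπk]
        exact zpow_le_zpow_right₀ hp1.le hkk
      exact (pow_le_pow_iff_left₀ (norm_nonneg _) (norm_nonneg _) hV).1 h2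

/-! ## Density of `K` in `K_v` -/

/-- the ring homomorphism `x ↦ ι_p (g⁻¹ x)` -/
def twEmb (g : GQ) : Qb →+* PadicAlgCl p :=
  (padicEmbedding p).toRingHom.comp ((g⁻¹ : GQ) : Qb ≃ₐ[ℚ] Qb).toAlgHom.toRingHom

theorem twEmb_apply (g : GQ) (x : Qb) : twEmb p g x = padicEmbedding p (g⁻¹ x) := rfl

/-- the image of `K = ℚ̄^U` in `ℚ̄_p` under `ι_p ∘ g⁻¹` -/
def imK (g : GQ) (U : Subgroup GQ) : Subring (PadicAlgCl p) :=
  (fixK U).toSubalgebra.toSubring.map (twEmb p g)

theorem mem_imK_iff (g : GQ) (U : Subgroup GQ) (y : PadicAlgCl p) :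
    y ∈ imK p g U ↔ ∃ x ∈ fixK U, padicEmbedding p (g⁻¹ x) = y := by
  unfold imK
  rw [Subring.mem_map]
  rfl

theorem algebraMap_mem_closure_imK (g : GQ) (U : Subgroup GQ) (y : ℚ_[p]) :
    algebraMap ℚ_[p] (PadicAlgCl p) y ∈ (imK p g U).topologicalClosure := by
  have hcont : Continuous (algebraMap ℚ_[p] (PadicAlgCl p)) := continuous_algebraMap _ _
  refine DenseRange.induction_on (Padic.denseRange_ratCast p) y ?_ ?_
  · exact (Subring.isClosed_topologicalClosure (imK p g U)).preimage hcont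
  · intro c
    apply Subring.le_topologicalClosure
    rw [mem_imK_iff]
    refine ⟨(c : Qb), ?_, ?_⟩
    · have : (c : Qb) = algebraMap ℚ Qb c := (eq_ratCast _ c).symm
      rw [this]
      exact (fixK U).algebraMap_mem c
    · rw [map_ratCast, map_ratCast, map_ratCast]

/-- the closure of the image of `K`, as a `ℚ_p`-subalgebra -/
def clK (g : GQ) (U : Subgroup GQ) : Subalgebra ℚ_[p] (PadicAlgCl p) :=
  { (imK p g U).topologicalClosure with
    algebraMap_mem' := fun y => algebraMap_mem_closure_imK p g U y }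

theorem mem_clK_iff (g : GQ) (U : Subgroup GQ) (y : PadicAlgCl p) :
    y ∈ clK p g U ↔ y ∈ closure ((imK p g U : Subring (PadicAlgCl p)) : Set (PadicAlgCl p)) :=
  Iff.rfl

/-- elements fixed by `locSub p g U` lie in `ℚ_p (ι_p g⁻¹ K)` -/
theorem mem_adjoin_of_isFixedBy {U : Subgroup GQ} (hU : IsOpenQ U) (g : GQ) (π : PadicAlgCl p)
    (hπ : IsFixedBy p (locSub p g U) π) :
    π ∈ IntermediateField.adjoin ℚ_[p] ((imK p g U : Subring (PadicAlgCl p)) : Set (PadicAlgCl p)) := by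
  haveI := BLocal.isGalois_padicAlgCl p
  set E := IntermediateField.adjoin ℚ_[p]
    ((imK p g U : Subring (PadicAlgCl p)) : Set (PadicAlgCl p)) with hE
  rw [← InfiniteGalois.fixedField_fixingSubgroup E, IntermediateField.mem_fixedField_iff]
  intro τ hτ
  apply hπ
  rw [mem_locSub, ← fixingSubgroup_fixK hU, IntermediateField.mem_fixingSubgroup_iff]
  intro x hx
  have hmem : padicEmbedding p (g⁻¹ x) ∈ E := by
    apply IntermediateField.subset_adjoin
    rw [SetLike.mem_coe, mem_imK_iff]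
    exact ⟨x, hx, rfl⟩
  have h1 : τ (padicEmbedding p (g⁻¹ x)) = padicEmbedding p (g⁻¹ x) :=
    (IntermediateField.mem_fixingSubgroup_iff E τ).1 hτ _ hmem
  rw [← padicEmbedding_localGaloisToGlobal] at h1
  have h2 : localGaloisToGlobal p τ (g⁻¹ x) = g⁻¹ x := (padicEmbedding p).injective h1
  show g (localGaloisToGlobal p τ (g⁻¹ x)) = x
  rw [h2]
  exact AlgEquiv.apply_symm_apply g x

/-- **Density**: a nonzero element of `K_v` has the norm of an element of `K`. -/
theorem exists_global_norm_eq {U : Subgroup GQ} (hU : IsOpenQ U) (g : GQ) (π : PadicAlgCl p)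
    (hπ0 : π ≠ 0) (hπ : IsFixedBy p (locSub p g U) π) :
    ∃ x ∈ fixK U, x ≠ 0 ∧ ‖padicEmbedding p (g⁻¹ x)‖ = ‖π‖ := by
  have h1 := mem_adjoin_of_isFixedBy p hU g π hπ
  have h2 : π ∈ Algebra.adjoin ℚ_[p]
      ((imK p g U : Subring (PadicAlgCl p)) : Set (PadicAlgCl p)) := by
    rw [← IntermediateField.adjoin_toSubalgebra]
    exact h1
  have h3 : π ∈ clK p g U := by
    refine (Algebra.adjoin_le (S := clK p g U) ?_) h2
    intro y hy
    exact Subring.le_topologicalClosure _ hy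
  rw [mem_clK_iff, Metric.mem_closure_iff] at h3
  obtain ⟨s, hs, hsπ⟩ := h3 ‖π‖ (norm_pos_iff.2 hπ0)
  rw [SetLike.mem_coe, mem_imK_iff] at hs
  obtain ⟨x, hx, rfl⟩ := hs
  rw [dist_comm, dist_eq_norm] at hsπ
  have hnorm := norm_eq_of_norm_sub_lt p hsπ
  refine ⟨x, hx, ?_, hnorm⟩
  rintro rfl
  rw [map_zero, map_zero, norm_zero] at hnorm
  exact hπ0 (norm_eq_zero.1 hnorm.symm)

end Fermat.Agent.S55.G.Rec.H742
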